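import Fermat.Agent.S15.H422.UnitMem
import Fermat.Agent.A2.H528.Fricke
import Fermat.Agent.S28.H748.Family

/-!
# S15 / P-C1 (helper422), part 3: the Fricke involution on the modular unit

`w_N(u) · u = N¹²` for `u = N¹² Δ(q^N)/Δ(q)`, i.e. `w_N(u) = g = Δ(q)/Δ(q^N)`.

The involution `wF` (helper528, cell A2) is defined through the analytic bridge
`toFun : R_N → (ℍ → ℂ)`; we compare with the analytic unit `τ ↦ N¹² Δ(Nτ)/Δ(τ)` of helper589,
which lies in helper997's ring `holN N` by helper748's expansions of all its conjugates.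
-/

set_option autoImplicit false

noncomputable section

open ModularCurve HahnSeries UpperHalfPlane
open scoped MatrixGroups

namespace Fermat.Agent.S15.H422

open Fermat.Agent.S24 Fermat.Agent.S28 Fermat.Agent.S24.H997 Fermat.Agent.A2.H528

local notation "Δ" => ModularForm.discriminant

variable (N : ℕ) [NeZero N]

theorem pos_N : 0 < N := Nat.pos_of_ne_zero (NeZero.ne N)

/-- the analytic unit `τ ↦ N¹² Δ(Nτ)/Δ(τ)`. -/
def uAn : ℍ → ℂ := H589.unitFun N (pos_N N)

theorem scaleH_eq_infAff (τ : ℍ) : H589.scaleH N (pos_N N) τ = infAff N 0 1 τ := by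
  apply UpperHalfPlane.ext
  rw [H589.scaleH_coe, infAff_coe (pos_N N) one_pos]
  simp

theorem uAn_eq (τ : ℍ) : uAn N τ = (N : ℂ) ^ 12 * H748.conjU N 0 1 τ := by
  simp only [uAn, H589.unitFun, H748.conjU, scaleH_eq_infAff]
  simp
  ring

/-- every `SL(2,ℤ)`-translate of the analytic unit has an expansion in `q^{1/N}`. -/
theorem compSL_uAn_mem_expRing (γ : SL(2, ℤ)) : compSL γ (uAn N) ∈ expRing N := by
  have hmem : (fun τ => H748.conjU N 0 1 (γ • τ)) ∈ H748.famSet N :=
    H748.famSet_smul (H748.conjU_mem_famSet (pos_N N) dvd_rfl) γ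
  obtain ⟨φ, hφ, -⟩ := H748.famSet_infExp hmem
  have h := (InfExp.const (N := N) ((N : ℂ) ^ 12)).mul hφ
  refine InfExp.mem_expRing (h.congr fun τ => ?_)
  rw [compSL_apply, uAn_eq]

theorem uAn_mem_holN : uAn N ∈ holN N :=
  ⟨H589.mdifferentiable_unitFun N (pos_N N), compSL_uAn_mem_expRing N⟩

/-- the analytic unit as an element of `Hol`. -/
def uHol : (holBase N).Hol := ⟨uAn N, uAn_mem_holN N⟩

theorem infExp_uAn : InfExp N (uAn N) (qExpand ℂ N (H589.unitSeriesC N)) :=
  H748.infExp_level (H748.infExp_of_hasTExp_one (H589.hasTExp_unitFun N (pos_N N)))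

theorem Φ_uSer : HolBase.Φ N (uSer N) = qExpand ℂ N (H589.unitSeriesC N) := by
  show qExpand ℂ N (coeffMap ιK (uSer N)) = _
  congr 1
  rw [uSer, Deg457.coeffMap_coeffEmb']
  exact coeffMap_uSerQ N

theorem qexp_uHol : (holBase N).qexp (uHol N) = HolBase.Φ N (uSer N) := by
  rw [Φ_uSer]
  exact (infExp_uAn N).expInf_eq

/-- the analytic functional equation `u(-1/(Nτ)) · u(τ) = N¹²`. -/
theorem uAn_fricke (τ : ℍ) : uAn N (fricke N τ) * uAn N τ = (N : ℂ) ^ 12 := by
  have h1 : fricke N τ = ModularGroup.S • H589.scaleH N (pos_N N) τ := by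
    rw [fricke, scaleH_eq_infAff]
  have h2 := H589.unitFun_S_scaleH N (pos_N N) τ
  rw [uAn, h1, h2, H589.unitFun', H589.unitFun]
  have hΔ1 : Δ τ ≠ 0 := ModularForm.discriminant_ne_zero τ
  have hΔ2 : Δ (H589.scaleH N (pos_N N) τ) ≠ 0 := ModularForm.discriminant_ne_zero _
  field_simp

/-- formal relation ⇒ analytic relation for the unit. -/
theorem toFun_eq_of_uF_mul {a b : RN N} (h : uF N * inclRN N b = inclRN N a) :
    toFun N a = uAn N * toFun N b := by
  have h1 : (holBase N).bridge a = uHol N * (holBase N).bridge b := by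
    apply (holBase N).qexp_injective
    rw [map_mul, HolBase.qexp_bridge, HolBase.qexp_bridge, qexp_uHol, ← map_mul]
    congr 1
    have := congrArg (fun x : FF N => (x : LaurentSeries Kbar)) h
    exact this.symm
  have h2 := congrArg (fun x : (holBase N).Hol => (x : ℍ → ℂ)) h1
  exact h2

/-- **`w_N(u) · u = N¹²`.** -/
theorem wF_uF_mul_uF : wF N (uF N) * uF N = algebraMap Kbar (FF N) ((N : Kbar) ^ 12) := by
  obtain ⟨a, b, hb, hab⟩ := exists_div_inclRN N (uF N)
  have hb' : inclRN N b ≠ 0 := fun h => hb (inclRN_injective N (by rw [h, map_zero]))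
  have hmul : uF N * inclRN N b = inclRN N a := by
    rw [hab, div_mul_cancel₀ _ hb']
  have hfun := toFun_eq_of_uF_mul N hmul
  -- apply the Fricke map
  have hfunW : toFun N (wR N a) = compW N (uAn N) * toFun N (wR N b) := by
    rw [toFun_wR, toFun_wR, hfun, map_mul]
  -- the relation in `R_N`
  have hR : wR N a * a = algebraMap Kbar (RN N) ((N : Kbar) ^ 12) * (wR N b * b) := by
    apply toFun_injective N
    rw [map_mul, map_mul, map_mul, toFun_algebraMap, hfunW, hfun]
    funext τ
    simp only [Pi.mul_apply, compW_apply]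
    have h := uAn_fricke N τ
    have hι : ιK ((N : Kbar) ^ 12) = (N : ℂ) ^ 12 := by
      rw [map_pow, map_natCast]
    rw [hι, ← h]
    ring
  have hwb : wR N b ≠ 0 := fun h => hb (wR_injective N (by rw [h, map_zero]))
  have hwb' : inclRN N (wR N b) ≠ 0 := fun h => hwb (inclRN_injective N (by rw [h, map_zero]))
  have hF := congrArg (inclRN N) hR
  rw [map_mul, map_mul, map_mul, AlgHom.commutes] at hF
  have hwa : wF N (inclRN N a) = inclRN N (wR N a) := wFHom_inclRN N a
  have hwb2 : wF N (inclRN N b) = inclRN N (wR N b) := wFHom_inclRN N b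
  rw [hab, map_div₀, hwa, hwb2]
  field_simp
  linear_combination hF

/-- `w_N(u) = g`. -/
theorem wF_uF : wF N (uF N) = gF N := by
  have h1 := wF_uF_mul_uF N
  have h2 := uF_mul_gF N
  have hu := uF_ne_zero N
  apply mul_right_cancel₀ hu
  rw [h1, mul_comm, h2]

/-- `w_N(g) = u`. -/
theorem wF_gF : wF N (gF N) = uF N := by
  rw [← wF_uF, wF_wF]

end Fermat.Agent.S15.H422
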