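import Fermat.Agent.S15.H422.UnitMem
import Fermat.Agent.S28.H88.PrimeLevel
import Fermat.Agent.S28.H807.Analytic

/-!
# S15 / P-C1 (helper422), part 2: the modular unit is integral over `ℤ[j]`

For `N` prime, `uF N = N¹² Δ(q^N)/Δ(q)` is a root of a monic polynomial with coefficients in
`ℤ[j]` (helper589/helper807: `UnitPolyData`), hence lies in every valuation ring of `FF N`
containing `j`: it has no poles outside the cusps.
-/

set_option autoImplicit false

noncomputable section

open ModularCurve HahnSeries AlgebraicCurve Polynomial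

namespace Fermat.Agent.S15.H422

open Fermat.Agent.S24 Fermat.Agent.S28

theorem coeffEmb_deltaSeries : coeffEmb Kbar deltaSeries = deltaL Kbar := by
  have h : deltaSeries = deltaL ℚ := rfl
  rw [h, coeffEmb, h88_coeffMap_deltaL]

theorem deltaL_inv (k : Type*) [Field k] : (deltaL k)⁻¹ = deltaInvL k :=
  inv_eq_of_mul_eq_one_right (h88_deltaL_mul_deltaInvL k)

theorem uSer_eq_unitL (N : ℕ) [NeZero N] :
    uSer N = (N : LaurentSeries Kbar) ^ 12 * unitL Kbar N := by
  rw [uSer, uSerQ, map_mul, map_mul, map_inv₀, coeffEmb_deltaSeries, deltaL_inv, deltaSeriesN,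
    unitL]
  have h1 : coeffEmb Kbar (qExpand ℚ N deltaSeries) = qExpand Kbar N (deltaL Kbar) := by
    rw [coeffEmb, coeffMap_qExpand]
    congr 1
    exact coeffEmb_deltaSeries
  have h2 : coeffEmb Kbar (HahnSeries.C ((N : ℚ) ^ 12)) = (N : LaurentSeries Kbar) ^ 12 := by
    rw [coeffEmb, coeffMap_C, map_pow, map_natCast, map_pow, map_natCast]
  rw [h1, h2, mul_assoc]

/-- the unit polynomial relation for `uSer`, in `ℚ̄((q))`. -/
theorem unitPoly_relation (N : ℕ) [NeZero N] (W : UnitPolyData N) :
    W.W.eval₂ (evalAt (jqModC Kbar)) (uSer N) = 0 := by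
  rw [uSer_eq_unitL]
  exact h88_unitPoly_field Kbar N W

theorem coe_jF_eq (N : ℕ) [NeZero N] : ((jF N : FF N) : LaurentSeries Kbar) = jqModC Kbar :=
  Deg457.JK_eq Kbar

/-- **No poles outside the cusps.** -/
theorem uF_mem_of_jF_mem (N : ℕ) [NeZero N] (hN : N.Prime) (A : ValuationSubring (FF N))
    (hj : jF N ∈ A) : uF N ∈ A := by
  obtain ⟨W⟩ := H807.nonempty_unitPolyData (p := N) hN
  -- the coefficient homomorphism `ℤ[Y] → A`, `Y ↦ j`
  let ψ : Polynomial ℤ →+* A := (Polynomial.aeval (R := ℤ) (⟨jF N, hj⟩ : A)).toRingHom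
  have hint : IsIntegral A (uF N) := by
    refine ⟨W.W.map ψ, W.monic.map ψ, ?_⟩
    rw [Polynomial.eval₂_map]
    -- compare inside `ℚ̄((q))`
    apply Subtype.ext
    have hcomp : ((modularFunctionFieldBar N).val.toRingHom.comp
        ((algebraMap A (FF N)).comp ψ)) = evalAt (jqModC Kbar) := by
      apply Polynomial.ringHom_ext
      · intro a
        simp [ψ, evalAt]
      · simp only [RingHom.coe_comp, Function.comp_apply, ψ, evalAt, AlgHom.toRingHom_eq_coe,
          RingHom.coe_coe, Polynomial.aeval_X]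
        exact coe_jF_eq N
    have h := unitPoly_relation N W
    rw [← hcomp] at h
    have h2 := Polynomial.hom_eval₂ W.W ((algebraMap A (FF N)).comp ψ)
      (modularFunctionFieldBar N).val.toRingHom (uF N)
    show (modularFunctionFieldBar N).val.toRingHom _ = _
    rw [h2]
    exact h
  obtain ⟨y, hy⟩ := (IsIntegrallyClosed.isIntegral_iff (R := A) (K := FF N)).mp hint
  rw [← hy]
  exact y.2

end Fermat.Agent.S15.H422
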