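import Fermat.Agent.S15.H422.UnitInt
import Fermat.Agent.S15.H422.UnitFricke
import Fermat.Agent.S15.H482.CuspPoles
import Fermat.Agent.S15.H362.CuspOrd
import Fermat.Agent.S24.Alg.LocOrd

/-!
# S15 / piece CUSP, nodes K2, K3, K4, K6 (helper422) — exact statements of `H362/CuspSpec.lean`

* K2 `unitSeriesBar_mem`  : `Δ(q)/Δ(q^p) ∈ ℚ̄(X₀(p))`;
* `unitBar p hp`          : the modular unit as an element of the function field
                            (same definition as in `CuspSpec.lean`);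
* K3 `ord_unitBar_of_ne`  : no zeros or poles off the cusps `∞`, `0`;
* K4 `wF_unitBar`         : `w u = p¹² u⁻¹`;
* `ord_cuspInfty_unitBar = 1 - p`, `ord_cuspZero_unitBar = p - 1`;
* K6 `pred_smul_cuspClass`: `(p - 1) • c = 0`.

Sorry-free.
-/

set_option autoImplicit false
set_option synthInstance.maxHeartbeats 400000

noncomputable section

open AlgebraicCurve ModularCurve HahnSeries

namespace Fermat.Agent.S15.H422

open Fermat.Agent.S15.H362 Fermat.Agent.A2.H528 Fermat.Agent.S24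

variable (p : ℕ) [NeZero p]

/-- **K2.** `Δ(q)/Δ(q^p)` is a modular function of level `p`. -/
theorem unitSeriesBar_mem (_hp : p.Prime) : unitSeriesBar p ∈ modularFunctionFieldBar p :=
  gSer_mem p

/-- The modular unit `u = Δ(q)/Δ(q^p)` as an element of `ℚ̄(X₀(p))`. -/
def unitBar (hp : p.Prime) : FB p := ⟨unitSeriesBar p, unitSeriesBar_mem p hp⟩

theorem unitBar_eq_gF (hp : p.Prime) : unitBar p hp = gF p := rfl

@[simp] theorem coe_unitBar (hp : p.Prime) :
    ((unitBar p hp : FB p) : LaurentSeries Qb) = unitSeriesBar p := rfl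

theorem unitBar_ne_zero (hp : p.Prime) : unitBar p hp ≠ 0 := gF_ne_zero p

/-- **K4.** `w u = p¹² u⁻¹`. -/
theorem wF_unitBar (hp : p.Prime) :
    wF p (unitBar p hp) = algebraMap Qb (FB p) ((p : Qb) ^ 12) * (unitBar p hp)⁻¹ := by
  rw [unitBar_eq_gF, wF_gF, ← uF_mul_gF p, mul_assoc, mul_inv_cancel₀ (gF_ne_zero p), mul_one]

/-- the inverse unit `p¹² Δ(q^p)/Δ(q)` is regular away from the cusps. -/
theorem ord_uF_nonneg_of_ne (hp : p.Prime) (P : Place Qb (FB p))
    (h₁ : P ≠ H362.cuspInfty p) (h₂ : P ≠ cuspZero p) : 0 ≤ P.ord (uF p) := by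
  have hj : 0 ≤ P.ord (H362.jBar p) := Fermat.Agent.S15.H482.ord_jBar_nonneg_of_ne p hp h₁ h₂
  have hjm : jF p ∈ P.toValuationSubring := H144.loc_mem_of_ord_nonneg P hj
  exact H144.loc_ord_nonneg_of_mem P (uF_mem_of_jF_mem p hp P.toValuationSubring hjm)

theorem wSemi_smul_wSemi_smul (P : Place Qb (FB p)) : wSemi p • (wSemi p • P) = P := by
  rw [← mul_smul, wSemi_mul_self, one_smul]

/-- `ord_P (w f) = ord_{w P} f`. -/
theorem ord_wF (P : Place Qb (FB p)) (f : FB p) :
    P.ord (wF p f) = (wSemi p • P).ord f := by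
  have h := SemilinearAut.ord_smul (wSemi p) P (wF p f)
  rw [wSemi_smul, wF_wF] at h
  exact h.symm

theorem ord_gF_nonneg_of_ne (hp : p.Prime) (P : Place Qb (FB p))
    (h₁ : P ≠ H362.cuspInfty p) (h₂ : P ≠ cuspZero p) : 0 ≤ P.ord (gF p) := by
  rw [← wF_uF, ord_wF]
  refine ord_uF_nonneg_of_ne p hp _ ?_ ?_
  · intro h
    apply h₂
    rw [cuspZero, ← h, wSemi_smul_wSemi_smul]
  · intro h
    apply h₁
    rw [← wSemi_smul_cuspZero, ← h, wSemi_smul_wSemi_smul]

theorem ord_uF_add_ord_gF (P : Place Qb (FB p)) : P.ord (uF p) + P.ord (gF p) = 0 := by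
  rw [← P.ord_mul (uF_ne_zero p) (gF_ne_zero p), uF_mul_gF]
  exact Fermat.Agent.S24.ord_algebraMap P _

/-- **K3.** The modular unit has neither zeros nor poles away from the cusps. -/
theorem ord_unitBar_of_ne (hp : p.Prime) (P : Place Qb (FB p))
    (h₁ : P ≠ H362.cuspInfty p) (h₂ : P ≠ cuspZero p) : P.ord (unitBar p hp) = 0 := by
  rw [unitBar_eq_gF]
  have h1 := ord_uF_nonneg_of_ne p hp P h₁ h₂
  have h2 := ord_gF_nonneg_of_ne p hp P h₁ h₂
  have h3 := ord_uF_add_ord_gF p P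
  omega

/-- the order of the modular unit at `∞`. -/
theorem ord_cuspInfty_unitBar (hp : p.Prime) :
    (H362.cuspInfty p).ord (unitBar p hp) = 1 - (p : ℤ) := by
  rw [H362.ord_cuspInfty, coe_unitBar, unitSeriesBar, H362.order_coeffEmb,
    (isMonicOfOrder_modularUnitSeries p).1]

/-- the order of the modular unit at `0`. -/
theorem ord_cuspZero_unitBar (hp : p.Prime) :
    (cuspZero p).ord (unitBar p hp) = (p : ℤ) - 1 := by
  have h1 := ord_cuspInfty_unitBar p hp
  have h2 := ord_uF_add_ord_gF p (H362.cuspInfty p)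
  rw [ord_cuspZero, unitBar_eq_gF, wF_gF]
  rw [unitBar_eq_gF] at h1
  omega

/-- `div u = (p - 1) ((0) - (∞))`. -/
theorem ord_unitBar_eq (hp : p.Prime) (P : Place Qb (FB p)) :
    (((p - 1 : ℕ) : ℤ) • (Finsupp.single (cuspZero p) (1 : ℤ)
        - Finsupp.single (H362.cuspInfty p) (1 : ℤ)) : Divisor Qb (FB p)) P
      = P.ord (unitBar p hp) := by
  classical
  have hne : cuspZero p ≠ H362.cuspInfty p := cuspZero_ne_cuspInfty p hp.one_lt
  have hp1 : ((p - 1 : ℕ) : ℤ) = (p : ℤ) - 1 := by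
    have := hp.one_le
    push_cast [Nat.cast_sub this]
    ring
  rw [Finsupp.smul_apply, Finsupp.sub_apply, smul_eq_mul, hp1]
  by_cases h1 : P = H362.cuspInfty p
  · subst h1
    rw [Finsupp.single_eq_same, Finsupp.single_eq_of_ne hne.symm, ord_cuspInfty_unitBar]
    ring
  by_cases h2 : P = cuspZero p
  · subst h2
    rw [Finsupp.single_eq_same, Finsupp.single_eq_of_ne hne, ord_cuspZero_unitBar]
    ring
  rw [Finsupp.single_eq_of_ne h1, Finsupp.single_eq_of_ne h2, ord_unitBar_of_ne p hp P h1 h2]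
  ring

/-- **K6.** `(p - 1) • c = 0`. -/
theorem pred_smul_cuspClass (hp : p.Prime) : (p - 1) • cuspClass p = 0 := by
  show (p - 1) • (QuotientAddGroup.mk (cuspDivisor p) : JZero p) = 0
  rw [← QuotientAddGroup.mk_nsmul, QuotientAddGroup.eq_zero_iff, AddSubgroup.mem_addSubgroupOf,
    Divisor.mem_principal]
  refine ⟨unitBar p hp, unitBar_ne_zero p hp, fun P => ?_⟩
  rw [← ord_unitBar_eq p hp P]
  show ((p - 1) • (Finsupp.single (cuspZero p) (1 : ℤ)
        - Finsupp.single (H362.cuspInfty p) (1 : ℤ)) : Divisor Qb (FB p)) P = _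
  rw [← natCast_zsmul]

end Fermat.Agent.S15.H422
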