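import Fermat.Agent.S15.H422.CuspUnit
import Mathlib.FieldTheory.Galois.Infinite
import Mathlib.NumberTheory.Padics.PadicVal.Basic

/-!
# S15 / piece CUSP, node K7 (helper422): Ogg's lower bound for the order of `c = cl((0) - (∞))`

`eisensteinNumerator_dvd_of_smul_cuspClass : m • cuspClass p = 0 → eisensteinNumerator p ∣ m`
(exact statement of `H362/CuspSpec.lean`), hence `cuspClass p ≠ 0` as soon as
`1 < eisensteinNumerator p`, i.e. `p ∉ {2, 3, 5, 7, 13}`.

Proof (Ogg).  Let `div f = m((0) - (∞))` and `u = Δ(q)/Δ(q^p)`, `div u = (p-1)((0) - (∞))`,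
`w u = p¹² u⁻¹`.  After normalising the leading coefficient of `f` to `1` we get
`f^(p-1) = u^m`; `f` is then fixed by the Galois action on the coefficients; `κ = f · w f`
is a constant, Galois-fixed, hence rational, with `κ^(p-1) = p^(12 m)`.  Taking `p`-adic valuations,
`(p - 1) ∣ 12 m`.

Sorry-free.
-/

set_option autoImplicit false
set_option synthInstance.maxHeartbeats 400000

noncomputable section

open AlgebraicCurve ModularCurve HahnSeries

namespace Fermat.Agent.S15.H422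

open Fermat.Agent.S15.H362 Fermat.Agent.A2.H528 Fermat.Agent.S24

/-! ### Leading coefficients of Laurent series -/

theorem order_eq_of_coeff {R : Type*} [Zero R] (x : LaurentSeries R) (n : ℤ)
    (h1 : x.coeff n ≠ 0) (h2 : ∀ k < n, x.coeff k = 0) : x.order = n := by
  have hx : x ≠ 0 := HahnSeries.ne_zero_of_coeff_ne_zero h1
  refine le_antisymm (HahnSeries.order_le_of_coeff_ne_zero h1) ?_
  by_contra hlt
  rw [not_le] at hlt
  exact hx (HahnSeries.coeff_order_eq_zero.mp (h2 _ hlt))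

theorem order_coeffMap {R S : Type*} [CommRing R] [CommRing S] (f : R →+* S)
    (hf : Function.Injective f) (x : LaurentSeries R) : (coeffMap f x).order = x.order := by
  rcases eq_or_ne x 0 with rfl | hx
  · simp
  refine order_eq_of_coeff _ _ ?_ ?_
  · rw [coeffMap_coeff]
    intro h
    rw [← map_zero f] at h
    exact hx (HahnSeries.coeff_order_eq_zero.mp (hf h))
  · intro k hk
    rw [coeffMap_coeff, HahnSeries.coeff_eq_zero_of_lt_order hk, map_zero]

theorem leadingCoeff_coeffMap {R S : Type*} [CommRing R] [CommRing S] (f : R →+* S)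
    (hf : Function.Injective f) (x : LaurentSeries R) :
    (coeffMap f x).leadingCoeff = f x.leadingCoeff := by
  rw [HahnSeries.leadingCoeff_eq, HahnSeries.leadingCoeff_eq, order_coeffMap f hf, coeffMap_coeff]

variable (p : ℕ) [NeZero p]

/-- The leading coefficient of the `q`-expansion, as a multiplicative map. -/
def lcF : FB p →*₀ Qb where
  toFun f := (f : LaurentSeries Qb).leadingCoeff
  map_zero' := HahnSeries.leadingCoeff_zero
  map_one' := HahnSeries.leadingCoeff_one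
  map_mul' f g := HahnSeries.leadingCoeff_mul _ _

theorem lcF_apply (f : FB p) : lcF p f = (f : LaurentSeries Qb).leadingCoeff := rfl

theorem lcF_algebraMap (c : Qb) : lcF p (algebraMap Qb (FB p) c) = c := by
  show (algebraMap Qb (LaurentSeries Qb) c).leadingCoeff = c
  rw [algebraMap_laurentSeries_eq_single]
  exact HahnSeries.leadingCoeff_of_single

theorem lcF_gal (σ : Qb ≃ₐ[ℚ] Qb) (f : FB p) : lcF p (gal p σ f) = σ (lcF p f) := by
  show (coeffMap (σ : Qb →+* Qb) (f : LaurentSeries Qb)).leadingCoeff = _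
  rw [leadingCoeff_coeffMap _ σ.injective]
  rfl

theorem lcF_unitBar (hp : p.Prime) : lcF p (unitBar p hp) = 1 := by
  show (coeffEmb Qb (modularUnitSeries p)).leadingCoeff = 1
  rw [coeffEmb, leadingCoeff_coeffMap _ (algebraMap ℚ Qb).injective,
    (isMonicOfOrder_modularUnitSeries p).2, map_one]

theorem gal_unitBar (hp : p.Prime) (σ : Qb ≃ₐ[ℚ] Qb) :
    gal p σ (unitBar p hp) = unitBar p hp := by
  apply Subtype.ext
  show coeffMap (σ : Qb →+* Qb) (coeffEmb Qb (modularUnitSeries p)) = _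
  rw [coeffMap_coeffEmb]
  rfl

/-! ### Functions with divisor `m((0) - (∞))` -/

/-- `f` has divisor `m ((0) - (∞))`. -/
structure HasCuspDiv (m : ℤ) (f : FB p) : Prop where
  ne_zero : f ≠ 0
  ord_zero : (cuspZero p).ord f = m
  ord_infty : (H362.cuspInfty p).ord f = -m
  ord_of_ne : ∀ P : Place Qb (FB p), P ≠ H362.cuspInfty p → P ≠ cuspZero p → P.ord f = 0

variable {p}

theorem HasCuspDiv.mul {m n : ℤ} {f g : FB p} (hf : HasCuspDiv p m f) (hg : HasCuspDiv p n g) :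
    HasCuspDiv p (m + n) (f * g) where
  ne_zero := mul_ne_zero hf.ne_zero hg.ne_zero
  ord_zero := by rw [Place.ord_mul _ hf.ne_zero hg.ne_zero, hf.ord_zero, hg.ord_zero]
  ord_infty := by
    rw [Place.ord_mul _ hf.ne_zero hg.ne_zero, hf.ord_infty, hg.ord_infty]; ring
  ord_of_ne P h1 h2 := by
    rw [Place.ord_mul _ hf.ne_zero hg.ne_zero, hf.ord_of_ne P h1 h2, hg.ord_of_ne P h1 h2]; rfl

theorem HasCuspDiv.inv {m : ℤ} {f : FB p} (hf : HasCuspDiv p m f) : HasCuspDiv p (-m) f⁻¹ where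
  ne_zero := inv_ne_zero hf.ne_zero
  ord_zero := by rw [Place.ord_inv, hf.ord_zero]
  ord_infty := by rw [Place.ord_inv, hf.ord_infty]
  ord_of_ne P h1 h2 := by rw [Place.ord_inv, hf.ord_of_ne P h1 h2]; rfl

theorem HasCuspDiv.pow {m : ℤ} {f : FB p} (hf : HasCuspDiv p m f) (k : ℕ) :
    HasCuspDiv p (k * m) (f ^ k) where
  ne_zero := pow_ne_zero _ hf.ne_zero
  ord_zero := by rw [H144.loc_ord_pow, hf.ord_zero]
  ord_infty := by rw [H144.loc_ord_pow, hf.ord_infty]; ring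
  ord_of_ne P h1 h2 := by rw [H144.loc_ord_pow, hf.ord_of_ne P h1 h2]; ring

theorem hasCuspDiv_algebraMap {c : Qb} (hc : c ≠ 0) : HasCuspDiv p 0 (algebraMap Qb (FB p) c) where
  ne_zero := by rwa [ne_eq, map_eq_zero]
  ord_zero := Fermat.Agent.S24.ord_algebraMap _ _
  ord_infty := by rw [neg_zero]; exact Fermat.Agent.S24.ord_algebraMap _ _
  ord_of_ne P _ _ := Fermat.Agent.S24.ord_algebraMap _ _

/-- a function with trivial cuspidal divisor is a nonzero constant. -/
theorem HasCuspDiv.const {f : FB p} (hf : HasCuspDiv p 0 f) :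
    ∃ a : Qb, a ≠ 0 ∧ f = algebraMap Qb (FB p) a := by
  obtain ⟨a, ha⟩ := Fermat.Agent.S15.H482.eq_algebraMap_of_ord_eq_zero p f hf.ne_zero (by
    intro P
    by_cases h1 : P = H362.cuspInfty p
    · rw [h1, hf.ord_infty, neg_zero]
    by_cases h2 : P = cuspZero p
    · rw [h2, hf.ord_zero]
    exact hf.ord_of_ne P h1 h2)
  refine ⟨a, ?_, ha⟩
  rintro rfl
  exact hf.ne_zero (by rw [ha, map_zero])

variable (p)

theorem hasCuspDiv_unitBar (hp : p.Prime) : HasCuspDiv p ((p : ℤ) - 1) (unitBar p hp) where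
  ne_zero := unitBar_ne_zero p hp
  ord_zero := ord_cuspZero_unitBar p hp
  ord_infty := by rw [ord_cuspInfty_unitBar]; ring
  ord_of_ne P h1 h2 := ord_unitBar_of_ne p hp P h1 h2

variable {p}

/-- `w` turns `m((0) - (∞))` into `-m((0) - (∞))`. -/
theorem HasCuspDiv.wF {m : ℤ} {f : FB p} (hf : HasCuspDiv p m f) :
    HasCuspDiv p (-m) (wF p f) where
  ne_zero := by rw [ne_eq, EmbeddingLike.map_eq_zero_iff]; exact hf.ne_zero
  ord_zero := by rw [ord_wF, wSemi_smul_cuspZero, hf.ord_infty]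
  ord_infty := by
    rw [ord_wF, neg_neg]
    exact hf.ord_zero
  ord_of_ne P h1 h2 := by
    rw [ord_wF]
    refine hf.ord_of_ne _ ?_ ?_
    · intro h
      apply h2
      rw [cuspZero, ← h, wSemi_smul_wSemi_smul]
    · intro h
      apply h1
      rw [← wSemi_smul_cuspZero, ← h, wSemi_smul_wSemi_smul]

variable (p)

/-! ### From the class to a function -/

open Classical in
theorem cuspDiv_apply (hp : p.Prime) (m : ℕ) (P : Place Qb (FB p)) :
    ((m • cuspDivisor p : Divisor.degZero (K := Qb) (F := FB p)) : Divisor Qb (FB p)) P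
      = if P = cuspZero p then (m : ℤ) else if P = H362.cuspInfty p then -(m : ℤ) else 0 := by
  classical
  have hne : cuspZero p ≠ H362.cuspInfty p := cuspZero_ne_cuspInfty p hp.one_lt
  rw [AddSubgroup.coe_nsmul, coe_cuspDivisor, Finsupp.smul_apply, Finsupp.sub_apply,
    nsmul_eq_mul]
  by_cases h2 : P = cuspZero p
  · subst h2
    rw [if_pos rfl, Finsupp.single_eq_same, Finsupp.single_eq_of_ne hne]
    ring
  rw [if_neg h2]
  by_cases h1 : P = H362.cuspInfty p
  · subst h1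
    rw [if_pos rfl, Finsupp.single_eq_same, Finsupp.single_eq_of_ne hne.symm]
    ring
  rw [if_neg h1, Finsupp.single_eq_of_ne h1, Finsupp.single_eq_of_ne h2]
  ring

theorem exists_hasCuspDiv_of_smul_cuspClass (hp : p.Prime) (m : ℕ)
    (h : m • cuspClass p = 0) : ∃ f : FB p, HasCuspDiv p (m : ℤ) f := by
  have hne : cuspZero p ≠ H362.cuspInfty p := cuspZero_ne_cuspInfty p hp.one_lt
  have h' : m • (QuotientAddGroup.mk (cuspDivisor p) : JZero p) = 0 := h
  rw [← QuotientAddGroup.mk_nsmul, QuotientAddGroup.eq_zero_iff, AddSubgroup.mem_addSubgroupOf,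
    Divisor.mem_principal] at h'
  obtain ⟨f, hf, hord⟩ := h'
  refine ⟨f, hf, ?_, ?_, ?_⟩
  · rw [← hord, cuspDiv_apply p hp, if_pos rfl]
  · rw [← hord, cuspDiv_apply p hp, if_neg hne.symm, if_pos rfl]
  · intro P h1 h2
    rw [← hord, cuspDiv_apply p hp, if_neg h2, if_neg h1]

/-! ### Normalisation -/

/-- There is `f` with divisor `m((0) - (∞))`, leading coefficient `1` and `f^(p-1) = u^m`. -/
theorem exists_normalised (hp : p.Prime) (m : ℕ) (f : FB p) (hf : HasCuspDiv p (m : ℤ) f) :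
    ∃ f₁ : FB p, HasCuspDiv p (m : ℤ) f₁ ∧ lcF p f₁ = 1 ∧ f₁ ^ (p - 1) = unitBar p hp ^ m := by
  have hlc : lcF p f ≠ 0 := by
    rw [ne_eq, map_eq_zero]; exact hf.ne_zero
  refine ⟨algebraMap Qb (FB p) (lcF p f)⁻¹ * f, ?_, ?_, ?_⟩
  · have := (hasCuspDiv_algebraMap (p := p) (inv_ne_zero hlc)).mul hf
    rwa [zero_add] at this
  · rw [map_mul, lcF_algebraMap, inv_mul_cancel₀ hlc]
  · set f₁ := algebraMap Qb (FB p) (lcF p f)⁻¹ * f with hf₁
    have hf₁d : HasCuspDiv p (m : ℤ) f₁ := by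
      have := (hasCuspDiv_algebraMap (p := p) (inv_ne_zero hlc)).mul hf
      rwa [zero_add] at this
    have hf₁lc : lcF p f₁ = 1 := by
      rw [hf₁, map_mul, lcF_algebraMap, inv_mul_cancel₀ hlc]
    have hp1 : ((p - 1 : ℕ) : ℤ) = (p : ℤ) - 1 := by
      have := hp.one_le
      push_cast [Nat.cast_sub this]
      ring
    -- the quotient has trivial divisor
    have hq : HasCuspDiv p 0 (f₁ ^ (p - 1) * (unitBar p hp ^ m)⁻¹) := by
      have := (hf₁d.pow (p - 1)).mul ((hasCuspDiv_unitBar p hp).pow m).inv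
      have h0 : ((p - 1 : ℕ) : ℤ) * (m : ℤ) + -((m : ℤ) * ((p : ℤ) - 1)) = 0 := by
        rw [hp1]; ring
      rwa [h0] at this
    obtain ⟨a, -, ha⟩ := hq.const
    have hu : unitBar p hp ^ m ≠ 0 := pow_ne_zero _ (unitBar_ne_zero p hp)
    have ha1 : a = 1 := by
      have := congrArg (lcF p) ha
      rw [map_mul, map_inv₀, map_pow, map_pow, hf₁lc, lcF_unitBar, one_pow, one_pow, inv_one,
        mul_one, lcF_algebraMap] at this
      exact this.symm
    rw [ha1, map_one] at ha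
    calc f₁ ^ (p - 1) = f₁ ^ (p - 1) * (unitBar p hp ^ m)⁻¹ * unitBar p hp ^ m := by
          rw [mul_assoc, inv_mul_cancel₀ hu, mul_one]
      _ = unitBar p hp ^ m := by rw [ha, one_mul]

/-- a root of unity of `FB p` with leading coefficient `1` is `1`. -/
theorem eq_one_of_pow_eq_one {ζ : FB p} {k : ℕ} (hk : 0 < k) (hζ : ζ ^ k = 1)
    (hlc : lcF p ζ = 1) : ζ = 1 := by
  have halg : IsAlgebraic Qb ζ := by
    refine ⟨Polynomial.X ^ k - Polynomial.C (1 : Qb), Polynomial.X_pow_sub_C_ne_zero hk 1, ?_⟩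
    simp [hζ]
  obtain ⟨c, hc⟩ := Fermat.Agent.S24.exists_algebraMap_eq_of_isAlgebraic (K := Qb) halg
  rw [← hc, lcF_algebraMap] at hlc
  rw [← hc, hlc, map_one]

/-- the normalised function is Galois-fixed. -/
theorem gal_eq_of_normalised (hp : p.Prime) (m : ℕ) (f₁ : FB p) (hne : f₁ ≠ 0)
    (hlc : lcF p f₁ = 1) (hpow : f₁ ^ (p - 1) = unitBar p hp ^ m) (σ : Qb ≃ₐ[ℚ] Qb) :
    gal p σ f₁ = f₁ := by
  have hk : 0 < p - 1 := by have := hp.two_le; omega
  have h1 : (gal p σ f₁) ^ (p - 1) = f₁ ^ (p - 1) := by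
    rw [← map_pow, hpow, map_pow, gal_unitBar]
  have h2 : (gal p σ f₁ * f₁⁻¹) ^ (p - 1) = 1 := by
    rw [mul_pow, h1, ← mul_pow, mul_inv_cancel₀ hne, one_pow]
  have h3 : lcF p (gal p σ f₁ * f₁⁻¹) = 1 := by
    rw [map_mul, map_inv₀, lcF_gal, hlc, map_one, inv_one, mul_one]
  have h4 := eq_one_of_pow_eq_one p hk h2 h3
  calc gal p σ f₁ = gal p σ f₁ * f₁⁻¹ * f₁ := by rw [mul_assoc, inv_mul_cancel₀ hne, mul_one]
    _ = f₁ := by rw [h4, one_mul]

/-! ### The constant `κ = f · w f` -/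

theorem isGalois_Qb_h422 : IsGalois ℚ Qb := by
  haveI : Algebra.IsAlgebraic ℚ (AlgebraicClosure ℚ) := AlgebraicClosure.isAlgebraic ℚ
  haveI : IsAlgClosure ℚ (AlgebraicClosure ℚ) := ⟨inferInstance, inferInstance⟩
  exact IsAlgClosure.isGalois ℚ Qb

theorem exists_rat_pow_eq (hp : p.Prime) (m : ℕ) (h : m • cuspClass p = 0) :
    ∃ r : ℚ, r ^ (p - 1) = (p : ℚ) ^ (12 * m) := by
  obtain ⟨f, hf⟩ := exists_hasCuspDiv_of_smul_cuspClass p hp m h
  obtain ⟨f₁, hd, hlc, hpow⟩ := exists_normalised p hp m f hf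
  have hgal := gal_eq_of_normalised p hp m f₁ hd.ne_zero hlc hpow
  -- `κ = f₁ · w f₁` is a constant
  have hκ : HasCuspDiv p 0 (f₁ * wF p f₁) := by
    have := hd.mul hd.wF
    rwa [add_neg_cancel] at this
  obtain ⟨k₀, -, hk₀⟩ := hκ.const
  -- which is Galois-fixed
  have hfix : ∀ σ : Qb ≃ₐ[ℚ] Qb, σ k₀ = k₀ := by
    intro σ
    have h1 : gal p σ (f₁ * wF p f₁) = f₁ * wF p f₁ := by
      rw [map_mul, ← wF_gal, hgal]
    rw [hk₀, gal_algebraMap] at h1
    exact (algebraMap Qb (FB p)).injective h1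
  haveI := isGalois_Qb_h422
  obtain ⟨r, hr⟩ := (InfiniteGalois.mem_range_algebraMap_iff_fixed (k := ℚ) (K := Qb) k₀).mpr hfix
  refine ⟨r, ?_⟩
  -- `κ^(p-1) = p^(12 m)`
  have hu := unitBar_ne_zero p hp
  have h2 : (f₁ * wF p f₁) ^ (p - 1) = algebraMap Qb (FB p) ((p : Qb) ^ (12 * m)) := by
    rw [mul_pow, ← map_pow, hpow, map_pow, wF_unitBar, ← mul_pow, ← mul_assoc,
      mul_comm (unitBar p hp), mul_assoc, mul_inv_cancel₀ hu, mul_one, ← map_pow, ← pow_mul]
  rw [hk₀, ← map_pow] at h2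
  have h3 : k₀ ^ (p - 1) = (p : Qb) ^ (12 * m) := (algebraMap Qb (FB p)).injective h2
  rw [← hr, ← map_pow] at h3
  apply (algebraMap ℚ Qb).injective
  rw [h3, map_pow, map_natCast]

/-! ### Arithmetic -/

theorem dvd_of_rat_pow_eq {p : ℕ} (hp : p.Prime) {m : ℕ} {r : ℚ}
    (h : r ^ (p - 1) = (p : ℚ) ^ (12 * m)) : p - 1 ∣ 12 * m := by
  haveI : Fact p.Prime := ⟨hp⟩
  have hp0 : (p : ℚ) ≠ 0 := Nat.cast_ne_zero.mpr hp.ne_zero
  have h1 := congrArg (padicValRat p) h
  rw [padicValRat.pow, padicValRat.pow, padicValRat.self hp.one_lt, mul_one] at h1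
  have h2 : ((p - 1 : ℕ) : ℤ) ∣ ((12 * m : ℕ) : ℤ) := ⟨padicValRat p r, h1.symm⟩
  exact Int.natCast_dvd_natCast.mp h2

theorem div_gcd_dvd_of_dvd_mul {a m : ℕ} (h : a ∣ 12 * m) : a / Nat.gcd a 12 ∣ m := by
  have hd : 0 < Nat.gcd a 12 := Nat.gcd_pos_of_pos_right a (by norm_num)
  have hcop : Nat.Coprime (a / Nat.gcd a 12) (12 / Nat.gcd a 12) :=
    Nat.coprime_div_gcd_div_gcd hd
  have ha : a = Nat.gcd a 12 * (a / Nat.gcd a 12) :=
    (Nat.mul_div_cancel' (Nat.gcd_dvd_left a 12)).symm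
  have h12 : 12 = Nat.gcd a 12 * (12 / Nat.gcd a 12) :=
    (Nat.mul_div_cancel' (Nat.gcd_dvd_right a 12)).symm
  have h1 : Nat.gcd a 12 * (a / Nat.gcd a 12) ∣ Nat.gcd a 12 * ((12 / Nat.gcd a 12) * m) := by
    rw [← mul_assoc, ← h12, ← ha]
    exact h
  have h2 : a / Nat.gcd a 12 ∣ (12 / Nat.gcd a 12) * m := Nat.dvd_of_mul_dvd_mul_left hd h1
  exact hcop.dvd_of_dvd_mul_left h2

/-- **K7.** (Ogg, lower bound) `m • c = 0 → n ∣ m`, `n = num((p-1)/12)`. -/
theorem eisensteinNumerator_dvd_of_smul_cuspClass (hp : p.Prime) (m : ℕ)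
    (h : m • cuspClass p = 0) : eisensteinNumerator p ∣ m := by
  obtain ⟨r, hr⟩ := exists_rat_pow_eq p hp m h
  exact div_gcd_dvd_of_dvd_mul (dvd_of_rat_pow_eq hp hr)

/-- The cuspidal class is nonzero for `p ∉ {2, 3, 5, 7, 13}`. -/
theorem cuspClass_ne_zero (hp : p.Prime) (hn : 1 < eisensteinNumerator p) : cuspClass p ≠ 0 := by
  intro h0
  have h1 : (1 : ℕ) • cuspClass p = 0 := by rw [one_smul, h0]
  have := Nat.le_of_dvd Nat.one_pos (eisensteinNumerator_dvd_of_smul_cuspClass p hp 1 h1)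
  omega

end Fermat.Agent.S15.H422
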