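import Fermat.Agent.S29.H882.MeroPrim
import Fermat.Agent.S29.H882.Inter
import Fermat.Agent.S28.H589.UnitPoly
import Fermat.Agent.S28.H748.Package
import Fermat.Prelude.Def_ModularCurve_ModularUnit

/-!
# S15 / P-C1 (helper422), part 1: the modular unit lies in the function field of `X₀(N)`

`gSer N = Δ(q)/Δ(q^N)` (the Prelude's `modularUnitSeries N`, base changed to `ℚ̄`) and
`uSer N = N¹² Δ(q^N)/Δ(q)` are elements of `modularFunctionFieldBar N`.

Inputs (all on main): helper589's analytic unit (`unitFun ∈ goodRing`, its `q`-expansion),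
helper882's MERO theorem (`q`-expansions of good functions lie in the function field over `ℂ`)
and his descent `F_ℂ ∩ ℚ̄((q)) = F_ℚ̄`.
-/

set_option autoImplicit false

noncomputable section

open ModularCurve HahnSeries UpperHalfPlane
open scoped MatrixGroups

namespace Fermat.Agent.S15.H422

open Fermat.Agent.S24 Fermat.Agent.S28

/-- `N¹² Δ(q^N)/Δ(q)` over `ℚ`. -/
def uSerQ (N : ℕ) [NeZero N] : LaurentSeries ℚ :=
  HahnSeries.C ((N : ℚ) ^ 12) * deltaSeriesN N * deltaSeries⁻¹

theorem uSerQ_mul_modularUnitSeries (N : ℕ) [NeZero N] :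
    uSerQ N * modularUnitSeries N = HahnSeries.C ((N : ℚ) ^ 12) := by
  have h1 := deltaSeries_ne_zero
  have h2 := deltaSeriesN_ne_zero N
  rw [uSerQ, modularUnitSeries]
  field_simp

theorem deltaSeries_eq_deltaq : deltaSeries = deltaq := rfl

theorem coeffMap_deltaSeries :
    coeffMap (algebraMap ℚ ℂ) deltaSeries = H565.deltaSeriesC := by
  rw [deltaSeries_eq_deltaq]
  exact H748.coeffMap_deltaq

theorem coeffMap_C {R S : Type*} [CommRing R] [CommRing S] (f : R →+* S) (c : R) :
    coeffMap f (HahnSeries.C c : LaurentSeries R) = HahnSeries.C (f c) := by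
  rw [HahnSeries.C_apply, coeffMap_single, HahnSeries.C_apply]

/-- the base change of `uSerQ` to `ℂ` is helper589's series. -/
theorem coeffMap_uSerQ (N : ℕ) [NeZero N] :
    coeffMap (algebraMap ℚ ℂ) (uSerQ N) = H589.unitSeriesC N := by
  have hinv : (H565.deltaSeriesC)⁻¹ = H565.deltaInvSeriesC :=
    inv_eq_of_mul_eq_one_right H565.deltaSeriesC_mul_inv
  rw [uSerQ, H589.unitSeriesC, map_mul, map_mul, coeffMap_C, map_inv₀, deltaSeriesN,
    coeffMap_qExpand, coeffMap_deltaSeries, hinv]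
  simp

/-- the unit function has the expected `q`-expansion, in helper708's sense. -/
theorem hasQExp_unitFun (N : ℕ) [NeZero N] (hN : 0 < N) :
    H708.HasQExp 1 (H589.unitFun N hN) (H589.unitSeriesC N) := by
  refine H708.HasQExp.of_hasSum (H589.mdifferentiable_unitFun N hN) ?_
  intro τ
  have h := H589.hasTExp_unitFun N hN τ
  simpa [H708.qh] using h

/-- the unit series over `ℂ` lies in the function field over `ℂ`. -/
theorem unitSeriesC_mem_FC (N : ℕ) [NeZero N] :
    H589.unitSeriesC N ∈ laurentBaseChange ℂ (modularFunctionFieldFull N) := by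
  have hN : 0 < N := Nat.pos_of_ne_zero (NeZero.ne N)
  exact Fermat.Agent.S29.H882.mem_FC_of_hasQExp (H589.unitFun_mem_goodRing N hN)
    (hasQExp_unitFun N hN)

/-- `N¹² Δ(q^N)/Δ(q)` over `ℚ̄`. -/
def uSer (N : ℕ) [NeZero N] : LaurentSeries Kbar := coeffEmb Kbar (uSerQ N)

/-- `Δ(q)/Δ(q^N)` over `ℚ̄`. -/
def gSer (N : ℕ) [NeZero N] : LaurentSeries Kbar := coeffEmb Kbar (modularUnitSeries N)

theorem uSer_mem (N : ℕ) [NeZero N] : uSer N ∈ modularFunctionFieldBar N := by
  refine Fermat.Agent.S29.H882.mem_laurentBaseChange_of_coeffMap_mem H997.ιK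
    (modularFunctionFieldFull N) ?_
  rw [uSer, Deg457.coeffMap_coeffEmb']
  show coeffMap (algebraMap ℚ ℂ) (uSerQ N) ∈ _
  rw [coeffMap_uSerQ]
  exact unitSeriesC_mem_FC N

theorem uSer_mul_gSer (N : ℕ) [NeZero N] :
    uSer N * gSer N = HahnSeries.C ((N : Kbar) ^ 12) := by
  rw [uSer, gSer, ← map_mul, uSerQ_mul_modularUnitSeries, coeffEmb, coeffMap_C]
  simp

theorem natCast_pow_ne_zero (N : ℕ) [NeZero N] : ((N : Kbar) ^ 12) ≠ 0 :=
  pow_ne_zero _ (Nat.cast_ne_zero.mpr (NeZero.ne N))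

theorem uSer_ne_zero (N : ℕ) [NeZero N] : uSer N ≠ 0 := by
  intro h
  have := uSer_mul_gSer N
  rw [h, zero_mul] at this
  have h2 := congrArg (fun s : LaurentSeries Kbar => s.coeff 0) this
  simp only [HahnSeries.coeff_zero, HahnSeries.C_apply, HahnSeries.coeff_single_same] at h2
  exact natCast_pow_ne_zero N h2.symm

theorem gSer_eq (N : ℕ) [NeZero N] :
    gSer N = HahnSeries.C ((N : Kbar) ^ 12) * (uSer N)⁻¹ := by
  rw [← uSer_mul_gSer N]
  field_simp [uSer_ne_zero N]

theorem C_mem (N : ℕ) (c : Kbar) :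
    (HahnSeries.C c : LaurentSeries Kbar) ∈ modularFunctionFieldBar N := by
  have : (HahnSeries.C c : LaurentSeries Kbar) = algebraMap Kbar (LaurentSeries Kbar) c := by
    rw [algebraMap_laurentSeries_eq_single]; rfl
  rw [this]
  exact (modularFunctionFieldBar N).algebraMap_mem c

theorem gSer_mem (N : ℕ) [NeZero N] : gSer N ∈ modularFunctionFieldBar N := by
  rw [gSer_eq]
  exact mul_mem (C_mem N _) (inv_mem (uSer_mem N))

/-- The modular unit `u = N¹² Δ(q^N)/Δ(q)` as an element of the function field of `X₀(N)`. -/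
def uF (N : ℕ) [NeZero N] : FF N := ⟨uSer N, uSer_mem N⟩

/-- The modular unit `g = Δ(q)/Δ(q^N)` as an element of the function field of `X₀(N)`. -/
def gF (N : ℕ) [NeZero N] : FF N := ⟨gSer N, gSer_mem N⟩

@[simp] theorem coe_uF (N : ℕ) [NeZero N] : ((uF N : FF N) : LaurentSeries Kbar) = uSer N := rfl

@[simp] theorem coe_gF (N : ℕ) [NeZero N] : ((gF N : FF N) : LaurentSeries Kbar) = gSer N := rfl

theorem uF_mul_gF (N : ℕ) [NeZero N] :
    uF N * gF N = algebraMap Kbar (FF N) ((N : Kbar) ^ 12) := by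
  apply Subtype.ext
  show uSer N * gSer N = algebraMap Kbar (LaurentSeries Kbar) ((N : Kbar) ^ 12)
  rw [uSer_mul_gSer, algebraMap_laurentSeries_eq_single]; rfl

theorem uF_ne_zero (N : ℕ) [NeZero N] : uF N ≠ 0 := fun h =>
  uSer_ne_zero N (congrArg Subtype.val h)

theorem gF_ne_zero (N : ℕ) [NeZero N] : gF N ≠ 0 := by
  intro h
  have := uF_mul_gF N
  rw [h, mul_zero] at this
  exact natCast_pow_ne_zero N ((algebraMap Kbar (FF N)).injective (by rw [← this, map_zero]))

end Fermat.Agent.S15.H422
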